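import Mathlib
import Fermat.Agent.LT.T7.H445.StepMSpec
import Fermat.Agent.LT.T2.H314.CommCore

/-!
# Row LT, tower T7, leaf T7.L2.1.H2a.A.3.3 `SphSuppC445` (helper330, registry 2895)

OFF-MAIN.  `sphSuppC330 K : H445.SphSuppC445 K`, VERBATIM against
`LT/T7/H445/StepMSpec.lean` (helper445@308fe65c0, sha256 95c0ff9307154243), unconditional
(the hypothesis `w.IsComplex` is not used).

Proof.  `C' = {h · Y(α,β)⁻¹ : h ∈ C, (α,β) ∈ [0,2π] × [0,π]}`, compact as the continuous image of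
`C × box` (`T2.H314.continuous_sphere314`).  If the sphere mean does not vanish at `g`, then
`φ (g Y(α,β)) ≠ 0` for some `(α,β)` of the box; `Y(α,β)` is trivial at the finite places, so `g`
is Iwahori where `g Y(α,β)` is, and if `g Y(α,β)` agrees with `h ∈ C` outside the orbit then `g`
agrees with `h Y(α,β)⁻¹ ∈ C'` outside the orbit.
-/

set_option autoImplicit false

open AutomorphicForm IsDedekindDomain NumberField MeasureTheory

noncomputable section

namespace Fermat.Agent.LT.T7.H330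

open Fermat.Agent.LT.H556 Fermat.Agent.LT.H556.A0 Fermat.Agent.LT.T7 Fermat.Agent.LT.T7.H445

variable {K : Type} [Field K] [NumberField K]

theorem sph_infComp_mul330 (w : InfinitePlace K) (g h : G K) :
    infComp w (g * h) = infComp w g * infComp w h := by
  rw [T5.infComp_eq_map, T5.infComp_eq_map, T5.infComp_eq_map, Units.val_mul, Matrix.map_mul]

/-- Right multiplication by an element which is trivial at `v` does not change the component
at `v`. -/
theorem sph_finComp_mul_triv330 (v : HeightOneSpectrum (𝓞 K)) (g y : G K)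
    (hy : TrivAtFin v y) : finComp v (g * y) = finComp v g := by
  have h1 : finComp v y = 1 := hy
  rw [T5.finComp_mulZ, h1, mul_one]

/-- Left multiplication by an element which is trivial at `v` does not change the component
at `v`. -/
theorem sph_finComp_triv_mul330 (v : HeightOneSpectrum (𝓞 K)) (g y : G K)
    (hy : TrivAtFin v y) : finComp v (y * g) = finComp v g := by
  have h1 : finComp v y = 1 := hy
  rw [T5.finComp_mulZ, h1, one_mul]

/-- `g` is Iwahori at `v` if `g y` is, for `y` trivial at `v`. -/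
theorem sph_inIwahori_of_mul330 (v : HeightOneSpectrum (𝓞 K)) (g y : G K)
    (hy : TrivAtFin v y) (h : T5.InIwahori v (g * y)) : T5.InIwahori v g := by
  have hy' : TrivAtFin v y⁻¹ := Fermat.Agent.LT.T2.H314.trivAtFin_inv314 hy
  have e1 : finComp v (g * y) = finComp v g := sph_finComp_mul_triv330 v g y hy
  have e2 : finComp v (g * y)⁻¹ = finComp v g⁻¹ := by
    rw [mul_inv_rev]
    exact sph_finComp_triv_mul330 v g⁻¹ y⁻¹ hy'
  obtain ⟨h1, h2, h3⟩ := h
  refine ⟨?_, ?_, ?_⟩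
  · intro i j
    have := h1 i j
    rwa [e1] at this
  · intro i j
    have := h2 i j
    rwa [e2] at this
  · rwa [e1] at h3

/-- The sphere mean vanishes at `g` if `φ (g Y(α,β))` vanishes on the box. -/
theorem sphMean_eq_zero330 (Y : ℝ → ℝ → G K) (φ : G K → ℂ) (g : G K)
    (h : ∀ α ∈ Set.Icc (0 : ℝ) (2 * Real.pi), ∀ β ∈ Set.Icc (0 : ℝ) Real.pi,
      φ (g * Y α β) = 0) : sphMean445 Y φ g = 0 := by
  show (∫ α in (0 : ℝ)..(2 * Real.pi), ∫ β in (0 : ℝ)..Real.pi,
    φ (g * Y α β) * ((Real.sin β : ℝ) : ℂ)) = 0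
  have h2pi : (0 : ℝ) ≤ 2 * Real.pi := by positivity
  have h1 : Set.EqOn
      (fun α : ℝ => ∫ β in (0 : ℝ)..Real.pi, φ (g * Y α β) * ((Real.sin β : ℝ) : ℂ))
      (fun _ : ℝ => (0 : ℂ)) (Set.uIcc (0 : ℝ) (2 * Real.pi)) := by
    intro α hα
    rw [Set.uIcc_of_le h2pi] at hα
    have h3 : Set.EqOn (fun β : ℝ => φ (g * Y α β) * ((Real.sin β : ℝ) : ℂ))
        (fun _ : ℝ => (0 : ℂ)) (Set.uIcc (0 : ℝ) Real.pi) := by
      intro β hβ
      rw [Set.uIcc_of_le Real.pi_pos.le] at hβ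
      show φ (g * Y α β) * ((Real.sin β : ℝ) : ℂ) = 0
      rw [h α hα β hβ, zero_mul]
    show (∫ β in (0 : ℝ)..Real.pi, φ (g * Y α β) * ((Real.sin β : ℝ) : ℂ)) = 0
    rw [intervalIntegral.integral_congr h3, intervalIntegral.integral_const, smul_zero]
  rw [intervalIntegral.integral_congr h1, intervalIntegral.integral_const, smul_zero]

/-- **LEAF T7.L2.1.H2a.A.3.3 `SphSuppC445`**: the sphere mean of a function which is
Iwahori-supported in a compact set is Iwahori-supported in a compact set. -/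
theorem sphSuppC330 (K : Type) [Field K] [NumberField K] : SphSuppC445 K := by
  intro w _ d Y hY l o C φ hC hφ
  have hYc : Continuous fun p : ℝ × ℝ => Y p.1 p.2 :=
    Fermat.Agent.LT.T2.H314.continuous_sphere314 hY
  have hB : IsCompact (Set.Icc (0 : ℝ) (2 * Real.pi) ×ˢ Set.Icc (0 : ℝ) Real.pi) :=
    isCompact_Icc.prod isCompact_Icc
  have hcont : Continuous fun q : G K × (ℝ × ℝ) => q.1 * (Y q.2.1 q.2.2)⁻¹ :=
    continuous_fst.mul ((hYc.comp continuous_snd).inv)
  refine ⟨(fun q : G K × (ℝ × ℝ) => q.1 * (Y q.2.1 q.2.2)⁻¹) ''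
    (C ×ˢ (Set.Icc (0 : ℝ) (2 * Real.pi) ×ˢ Set.Icc (0 : ℝ) Real.pi)),
    (hC.prod hB).image hcont, ?_⟩
  intro g hg
  -- a point of the box where the integrand does not vanish
  have hex : ∃ α ∈ Set.Icc (0 : ℝ) (2 * Real.pi), ∃ β ∈ Set.Icc (0 : ℝ) Real.pi,
      φ (g * Y α β) ≠ 0 := by
    by_contra hcon
    apply hg
    apply sphMean_eq_zero330
    intro α hα β hβ
    by_contra hne
    exact hcon ⟨α, hα, β, hβ, hne⟩
  obtain ⟨α, hα, β, hβ, hne⟩ := hex
  obtain ⟨hloc, -⟩ := hY α β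
  have htriv : ∀ v : HeightOneSpectrum (𝓞 K), TrivAtFin v (Y α β) := hloc.2
  obtain ⟨hIw, h, hhC, hinf, hfin⟩ := hφ (g * Y α β) hne
  refine ⟨fun j hj => sph_inIwahori_of_mul330 (o j) g (Y α β) (htriv (o j)) (hIw j hj),
    h * (Y α β)⁻¹, ⟨(h, (α, β)), ⟨hhC, hα, hβ⟩, rfl⟩, ?_, ?_⟩
  · intro w'
    have e : g = g * Y α β * (Y α β)⁻¹ := by rw [mul_inv_cancel_right]
    calc infComp w' g = infComp w' (g * Y α β * (Y α β)⁻¹) := by rw [← e]
      _ = infComp w' (g * Y α β) * infComp w' (Y α β)⁻¹ := sph_infComp_mul330 w' _ _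
      _ = infComp w' h * infComp w' (Y α β)⁻¹ := by rw [hinf w']
      _ = infComp w' (h * (Y α β)⁻¹) := (sph_infComp_mul330 w' _ _).symm
  · intro v hv
    have hy' : TrivAtFin v (Y α β)⁻¹ := Fermat.Agent.LT.T2.H314.trivAtFin_inv314 (htriv v)
    rw [sph_finComp_mul_triv330 v h (Y α β)⁻¹ hy', ← hfin v hv,
      sph_finComp_mul_triv330 v g (Y α β) (htriv v)]

end Fermat.Agent.LT.T7.H330

end
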